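import Mathlib
import Fermat.Agent.H29.ES1.GenInterfaces
import Fermat.Agent.H65.ES_CycloChar

/-!
# P-ES1, row ES1-EPS: cyclotomic characters modulo `n` for all `n`, with one complex conjugation

`cycloCharGen : Fermat.Agent.H29.ES1.CycloCharGenStatement` (helper90).

Port of helper65's `Fermat.Agent.H65.cycloCharStatement` (prime modulus) to an arbitrary modulus
`n ≠ 0`, with the complex conjugation `c` chosen before `n`.
-/

set_option autoImplicit false
set_option linter.style.haveILetI false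

namespace Fermat.Agent.H90.ES1

open Polynomial Fermat.Agent.H65 Fermat.Agent.H29.ES1

section Valuation

variable {L : Type*} [Field L]

theorem pow_mem_of_pow_eq_one (A : ValuationSubring L) {n : ℕ} (hn : n ≠ 0) {ζ : L}
    (hζ : ζ ^ n = 1) (a : ℕ) : ζ ^ a ∈ A :=
  cyclo_mem A hn (by rw [← pow_mul, mul_comm, pow_mul, hζ, one_pow])

/-- Key lemma: two powers of an `n`-th root of unity with the same residue at a valuation
subring over `ℓ`, `ℓ` prime to `n`, are equal. -/
theorem pow_eq_of_residue_eq (A : ValuationSubring L) {n ℓ : ℕ} (hn : n ≠ 0)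
    (hℓn : Nat.Coprime n ℓ) (hℓ : (ℓ : L) ∈ A.nonunits) {ζ : L} (hζ : ζ ^ n = 1)
    (a b : ℕ)
    (h : IsLocalRing.residue A ⟨ζ ^ a, pow_mem_of_pow_eq_one A hn hζ a⟩ =
         IsLocalRing.residue A ⟨ζ ^ b, pow_mem_of_pow_eq_one A hn hζ b⟩) :
    ζ ^ a = ζ ^ b := by
  have hζA : ζ ∈ A := cyclo_mem A hn hζ
  set z : A := ⟨ζ, hζA⟩ with hz
  have hzp : z ^ n = 1 := Subtype.ext (by simpa using hζ)
  have ha : (⟨ζ ^ a, pow_mem_of_pow_eq_one A hn hζ a⟩ : A) = z ^ a := Subtype.ext rfl
  have hb : (⟨ζ ^ b, pow_mem_of_pow_eq_one A hn hζ b⟩ : A) = z ^ b := Subtype.ext rfl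
  rw [ha, hb, map_pow, map_pow] at h
  set φ := IsLocalRing.residue A with hφ
  set ξ : A := z ^ a * z ^ ((n - 1) * b) with hξ
  have hp1 : 1 ≤ n := Nat.one_le_iff_ne_zero.mpr hn
  have hzpb : z ^ b * z ^ ((n - 1) * b) = 1 := by
    rw [← pow_add]
    have : b + (n - 1) * b = n * b := by
      have : n = (n - 1) + 1 := by omega
      conv_rhs => rw [this]
      ring
    rw [this, pow_mul, hzp, one_pow]
  have hξp : ξ ^ n = 1 := by
    rw [hξ, mul_pow, ← pow_mul, ← pow_mul, mul_comm a n, mul_comm ((n - 1) * b) n, pow_mul,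
      pow_mul z n, hzp, one_pow, one_pow, one_mul]
  have hφξ : φ ξ = 1 := by
    rw [hξ, map_mul, map_pow, map_pow, h, ← map_pow, ← map_pow, ← map_mul, hzpb, map_one]
  have hξ1 : ξ = 1 := by
    by_contra hne
    have hsum : ∑ i ∈ Finset.range n, ξ ^ i = 0 := by
      have := mul_geom_sum ξ n
      rw [hξp, sub_self] at this
      rcases mul_eq_zero.mp this with h0 | h0
      · exact absurd (sub_eq_zero.mp h0) hne
      · exact h0
    have := congrArg φ hsum
    rw [map_sum, map_zero] at this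
    simp only [map_pow, hφξ, one_pow, Finset.sum_const, Finset.card_range, nsmul_eq_mul,
      mul_one] at this
    exact cyclo_residue_natCast_ne_zero A hℓn hℓ (by simpa using this)
  have hfin : z ^ a = z ^ b := by
    have h1 : z ^ a * z ^ ((n - 1) * b) = z ^ b * z ^ ((n - 1) * b) := by
      rw [hzpb]; exact hξ1
    have hunit : IsUnit (z ^ ((n - 1) * b)) :=
      IsUnit.of_mul_eq_one (z ^ b) (by rw [mul_comm]; exact hzpb)
    exact hunit.mul_left_injective h1
  have := congrArg (Subtype.val) hfin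
  simpa using this

end Valuation

section Main

/-- `AlgebraicClosure ℚ` has a primitive `n`-th root of unity. -/
theorem exists_primitiveRoot (n : ℕ) [NeZero n] :
    ∃ ζ : AlgebraicClosure ℚ, IsPrimitiveRoot ζ n := by
  haveI : NeZero (n : AlgebraicClosure ℚ) := ⟨by exact_mod_cast (NeZero.ne n)⟩
  have hdeg : (cyclotomic n (AlgebraicClosure ℚ)).degree ≠ 0 := by
    rw [degree_cyclotomic]
    exact_mod_cast (Nat.totient_pos.mpr (Nat.pos_of_ne_zero (NeZero.ne n))).ne'
  obtain ⟨ζ, hζ⟩ := IsAlgClosed.exists_root (cyclotomic n (AlgebraicClosure ℚ)) hdeg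
  exact ⟨ζ, isRoot_cyclotomic_iff.mp hζ⟩

variable {n : ℕ} [NeZero n] {ζ : AlgebraicClosure ℚ}

/-- The value of the character is determined by the action on `ζ`. -/
theorem autToPow_eq_of_apply (hζ : IsPrimitiveRoot ζ n) (σ : GalQ) (m : ℕ)
    (h : σ ζ = ζ ^ m) : ((hζ.autToPow ℚ σ : (ZMod n)ˣ) : ZMod n) = (m : ZMod n) := by
  have hspec := hζ.autToPow_spec ℚ σ
  rw [h] at hspec
  have hζ0 : ζ ≠ 0 := hζ.ne_zero (NeZero.ne n)
  have hmod : ((hζ.autToPow ℚ σ : (ZMod n)ˣ) : ZMod n).val ≡ m [MOD n] := by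
    set a := ((hζ.autToPow ℚ σ : (ZMod n)ˣ) : ZMod n).val with ha
    rcases le_total a m with hle | hle
    · have h1 : ζ ^ (m - a) = 1 := by
        have : ζ ^ a * ζ ^ (m - a) = ζ ^ a * 1 := by
          rw [← pow_add, Nat.add_sub_cancel' hle, mul_one, hspec]
        exact mul_left_cancel₀ (pow_ne_zero _ hζ0) this
      exact (Nat.modEq_iff_dvd' hle).mpr ((hζ.pow_eq_one_iff_dvd _).mp h1)
    · have h1 : ζ ^ (a - m) = 1 := by
        have : ζ ^ m * ζ ^ (a - m) = ζ ^ m * 1 := by
          rw [← pow_add, Nat.add_sub_cancel' hle, mul_one, hspec]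
        exact mul_left_cancel₀ (pow_ne_zero _ hζ0) this
      exact ((Nat.modEq_iff_dvd' hle).mpr ((hζ.pow_eq_one_iff_dvd _).mp h1)).symm
  have := (ZMod.natCast_eq_natCast_iff _ _ _).mpr hmod
  rwa [ZMod.natCast_zmod_val] at this

/-- Unit version with `m = 1`. -/
theorem autToPow_eq_one_of_apply (hζ : IsPrimitiveRoot ζ n) (σ : GalQ)
    (h : σ ζ = ζ) : hζ.autToPow ℚ σ = 1 := by
  apply Units.ext
  have := autToPow_eq_of_apply hζ σ 1 (by rw [pow_one]; exact h)
  simpa using this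

/-- The action of the decomposition group on the residue of `ζ`. -/
theorem smul_residue (A : ValuationSubring (AlgebraicClosure ℚ))
    (hζ : IsPrimitiveRoot ζ n) (σ : GalQ) (hσ : σ ∈ A.decompositionSubgroup ℚ) :
    (⟨σ, hσ⟩ : A.decompositionSubgroup ℚ) • IsLocalRing.residue A
        ⟨ζ ^ 1, pow_mem_of_pow_eq_one A (NeZero.ne n) hζ.pow_eq_one 1⟩ =
      IsLocalRing.residue A ⟨ζ ^ ((hζ.autToPow ℚ σ : (ZMod n)ˣ) : ZMod n).val,
        pow_mem_of_pow_eq_one A (NeZero.ne n) hζ.pow_eq_one _⟩ := by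
  rw [← IsLocalRing.ResidueField.residue_smul]
  congr 1
  apply Subtype.ext
  change σ (ζ ^ 1) = ζ ^ ((hζ.autToPow ℚ σ : (ZMod n)ˣ) : ZMod n).val
  rw [pow_one]
  exact (hζ.autToPow_spec ℚ σ).symm

end Main

/-- **ES1-EPS**: cyclotomic characters modulo `n` for all `n ≠ 0`, with one complex
conjugation. -/
theorem cycloCharGen : CycloCharGenStatement := by
  -- the complex conjugation
  haveI halg : Algebra.IsAlgebraic ℚ (AlgebraicClosure ℚ) := AlgebraicClosure.isAlgebraic ℚ
  haveI hcl : IsAlgClosure ℚ (AlgebraicClosure ℚ) := ⟨inferInstance, inferInstance⟩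
  haveI hnorm : Normal ℚ (AlgebraicClosure ℚ) := IsAlgClosure.normal ℚ (AlgebraicClosure ℚ)
  let ι : AlgebraicClosure ℚ →ₐ[ℚ] ℂ := IsAlgClosed.lift
  letI : Algebra (AlgebraicClosure ℚ) ℂ := ι.toRingHom.toAlgebra
  haveI : IsScalarTower ℚ (AlgebraicClosure ℚ) ℂ :=
    IsScalarTower.of_algebraMap_eq (fun x => (ι.commutes x).symm)
  let conjQ : ℂ ≃ₐ[ℚ] ℂ := Complex.conjAe.restrictScalars ℚ
  let c : GalQ := conjQ.restrictNormal (AlgebraicClosure ℚ)
  have hc : ∀ x : AlgebraicClosure ℚ, ι (c x) = (starRingEnd ℂ) (ι x) := by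
    intro x
    have := AlgEquiv.restrictNormal_commutes conjQ (AlgebraicClosure ℚ) x
    exact this
  have hinj : Function.Injective ι := ι.toRingHom.injective
  refine ⟨c, ?_, ?_⟩
  · apply AlgEquiv.ext
    intro x
    apply hinj
    change ι (c (c x)) = ι x
    rw [hc, hc, Complex.conj_conj]
  intro n _
  have hn : n ≠ 0 := NeZero.ne n
  have hn1 : 1 ≤ n := Nat.one_le_iff_ne_zero.mpr hn
  obtain ⟨ζ, hζ⟩ := exists_primitiveRoot n
  have hζp : ζ ^ n = 1 := hζ.pow_eq_one
  refine ⟨hζ.autToPow ℚ, ?_, ?_, ?_⟩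
  · -- finite level
    refine ⟨IntermediateField.adjoin ℚ {ζ}, ?_, ?_⟩
    · exact IntermediateField.adjoin.finiteDimensional
        ((hζ.isIntegral (Nat.pos_of_ne_zero hn)).tower_top (A := ℚ))
    · intro σ hσ
      exact autToPow_eq_one_of_apply hζ σ
        (hσ ζ (IntermediateField.mem_adjoin_simple_self ℚ ζ))
  · -- complex conjugation
    apply Units.ext
    have hcz : c ζ = ζ ^ (n - 1) := by
      apply hinj
      rw [hc, map_pow]
      have hιp : (ι ζ) ^ n = 1 := by rw [← map_pow, hζp, map_one]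
      have hnorm : ‖ι ζ‖ = 1 := Complex.norm_eq_one_of_pow_eq_one hιp hn
      rw [← RCLike.inv_eq_conj hnorm]
      have hne0 : ι ζ ≠ 0 := by
        intro h0
        rw [h0, zero_pow hn] at hιp
        exact zero_ne_one hιp
      have : (ι ζ) ^ (n - 1) * ι ζ = 1 := by
        rw [← pow_succ, Nat.sub_add_cancel hn1, hιp]
      exact (eq_inv_of_mul_eq_one_left this).symm
    have := autToPow_eq_of_apply hζ c (n - 1) hcz
    rw [this, Units.val_neg, Units.val_one, Nat.cast_sub hn1]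
    simp
  · intro ℓ hℓ hne A hA
    have hcop : Nat.Coprime n ℓ := (Nat.Coprime.symm ((Nat.Prime.coprime_iff_not_dvd hℓ).mpr hne))
    refine ⟨?_, ?_⟩
    · -- inertia
      intro σ hσ
      rw [ValuationSubring.inertiaSubgroupIn, Subgroup.mem_map] at hσ
      obtain ⟨g, hg, rfl⟩ := hσ
      have hgact : ∀ x : IsLocalRing.ResidueField A, g • x = x := by
        intro x
        have := MonoidHom.mem_ker.mp hg
        have h' := congrArg (fun f : RingAut (IsLocalRing.ResidueField A) => f x) this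
        simpa using h'
      have h1 := smul_residue A hζ g.1 g.2
      have h2 := hgact (IsLocalRing.residue A
          ⟨ζ ^ 1, pow_mem_of_pow_eq_one A hn hζp 1⟩)
      have hg' : (⟨g.1, g.2⟩ : A.decompositionSubgroup ℚ) = g := Subtype.ext rfl
      rw [hg'] at h1
      rw [h1] at h2
      have h4 := pow_eq_of_residue_eq A hn hcop hA hζp _ _ h2
      apply autToPow_eq_one_of_apply hζ
      change g.1 ζ = ζ
      rw [← hζ.autToPow_spec ℚ g.1, h4, pow_one]
    · -- Frobenius
      intro σ hfrob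
      obtain ⟨hσ, hfr⟩ := hfrob
      have h1 := smul_residue A hζ σ hσ
      have h2 := hfr (IsLocalRing.residue A
          ⟨ζ ^ 1, pow_mem_of_pow_eq_one A hn hζp 1⟩)
      rw [h1] at h2
      have h3 : IsLocalRing.residue A ⟨ζ ^ 1, pow_mem_of_pow_eq_one A hn hζp 1⟩ ^ ℓ =
          IsLocalRing.residue A ⟨ζ ^ ℓ, pow_mem_of_pow_eq_one A hn hζp ℓ⟩ := by
        rw [← map_pow]
        congr 1
        apply Subtype.ext
        simp
      rw [h3] at h2
      have h4 := pow_eq_of_residue_eq A hn hcop hA hζp _ _ h2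
      exact autToPow_eq_of_apply hζ σ ℓ (by rw [← hζ.autToPow_spec ℚ σ]; exact h4)

end Fermat.Agent.H90.ES1
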